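import Fermat.Agent.S55.Local.Spec

/-!
# S55, layer L, piece LF6 : higher unit groups have finite index in the unit group

`theorem higherUnitsFiniteIndex : HigherUnitsFiniteIndexStatement`.

Proof.  Let `B` be the integral closure of `A` in `L`; it is a finite `A`-module.  For a nonzero
integral `ϖ`, the element `ϖ ^ j ∈ B` divides (in `B`) a nonzero element `a` of `A` (constant
coefficient of an integrality equation); `A ⧸ (a)` is finite (`A` is a DVR with finite residue
field), hence so are `B ⧸ a B` and `B ⧸ ϖ ^ j B`.  Two integral units congruent modulo `ϖ ^ j B`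
differ by an element of `higherUnits ϖ j`, so `U_L / U_L^{(j)}` injects into `B ⧸ ϖ ^ j B`.
-/

set_option autoImplicit false
set_option linter.style.haveILetI false

namespace Fermat.Agent.S55.Local.H177

open Fermat.Agent.S55.Local Polynomial

section General

variable {A : Type} [CommRing A] [IsDomain A]
variable {B : Type} [CommRing B] [IsDomain B] [Algebra A B]

/-- A nonzero integral element divides a nonzero element of the base ring. -/
lemma lf6_exists_ne_zero_dvd_algebraMap {x : B} (hx : IsIntegral A x) (hx0 : x ≠ 0) :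
    ∃ a : A, a ≠ 0 ∧ x ∣ algebraMap A B a := by
  obtain ⟨p, hpm, hp⟩ := hx
  have hp0 : p ≠ 0 := hpm.ne_zero
  obtain ⟨q, hpq, hq⟩ := Polynomial.exists_eq_pow_rootMultiplicity_mul_and_not_dvd p hp0 0
  set k := p.rootMultiplicity 0
  have hqx : aeval x q = 0 := by
    have h1 : aeval x p = 0 := by simpa [aeval_def] using hp
    rw [hpq] at h1
    simp only [map_zero, sub_zero, map_mul, map_pow, aeval_X] at h1
    rcases mul_eq_zero.mp h1 with h | h
    · exact absurd h (pow_ne_zero _ hx0)
    · exact h
  have hq0 : q.coeff 0 ≠ 0 := by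
    intro h
    apply hq
    simpa using Polynomial.X_dvd_iff.mpr h
  refine ⟨q.coeff 0, hq0, -(aeval x q.divX), ?_⟩
  have h1 : q.divX * X + C (q.coeff 0) = q := Polynomial.divX_mul_X_add _
  rw [← h1] at hqx
  simp only [map_add, map_mul, aeval_X, aeval_C] at hqx
  linear_combination hqx

/-- Quotients of a DVR with finite residue field by nonzero elements are finite. -/
lemma lf6_finite_quotient_span [IsDiscreteValuationRing A]
    [Finite (IsLocalRing.ResidueField A)] {a : A} (ha : a ≠ 0) :
    Finite (A ⧸ Ideal.span {a}) := by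
  rw [IsLocalRing.finite_quotient_iff]
  obtain ⟨ϖ, hϖ⟩ := IsDiscreteValuationRing.exists_irreducible A
  obtain ⟨n, hn⟩ := IsDiscreteValuationRing.ideal_eq_span_pow_irreducible
    (s := Ideal.span {a}) (by simpa using ha) hϖ
  refine ⟨n, ?_⟩
  rw [hn, hϖ.maximalIdeal_eq, Ideal.span_singleton_pow]

/-- If `B` is a finite `A`-module (`A` a DVR with finite residue field) and `x ∈ B` is a nonzero
integral element, then `B ⧸ x B` is finite. -/
lemma lf6_finite_quotient_of_ne_zero [IsDiscreteValuationRing A]
    [Finite (IsLocalRing.ResidueField A)] [Module.Finite A B] {x : B} (hx0 : x ≠ 0) :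
    Finite (B ⧸ Ideal.span {x}) := by
  have hx : IsIntegral A x := IsIntegral.of_finite A x
  obtain ⟨a, ha, hxa⟩ := lf6_exists_ne_zero_dvd_algebraMap hx hx0
  haveI : Finite (A ⧸ Ideal.span {a}) := lf6_finite_quotient_span ha
  haveI : Module.Finite (A ⧸ Ideal.span {a})
      (B ⧸ (Ideal.span {a}).map (algebraMap A B)) :=
    Module.Finite.of_restrictScalars_finite A _ _
  haveI : Finite (B ⧸ (Ideal.span {a}).map (algebraMap A B)) :=
    Module.finite_of_finite (A ⧸ Ideal.span {a})
  have hle : (Ideal.span {a}).map (algebraMap A B) ≤ Ideal.span {x} := by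
    rw [Ideal.map_span, Set.image_singleton, Ideal.span_singleton_le_span_singleton]
    exact hxa
  exact Finite.of_surjective _ (Ideal.Quotient.factor_surjective hle)

end General

/-- **LF6.**  Higher unit groups have finite index in the unit group. -/
theorem higherUnitsFiniteIndex : HigherUnitsFiniteIndexStatement := by
  intro A F _ _ _ _ _ _ _ _ _ L _ _ _ ϖ hϖ hϖ0 j
  letI : Algebra A L := (toL A F L).toAlgebra
  haveI : IsScalarTower A F L := IsScalarTower.of_algebraMap_eq (fun _ => rfl)
  let B : Subalgebra A L := integralClosure A L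
  haveI : Module.Finite A B := IsIntegralClosure.finite A F L B
  have hmem : ∀ y : L, IsInt A F L y ↔ y ∈ B := fun y => Iff.rfl
  have hϖj : ϖ ^ j ∈ B := Subalgebra.pow_mem _ ((hmem ϖ).1 hϖ) j
  set x : B := ⟨ϖ ^ j, hϖj⟩ with hx
  have hx0 : x ≠ 0 := by
    intro h
    have : (x : L) = 0 := by rw [h]; rfl
    exact pow_ne_zero j hϖ0 this
  haveI : Finite (B ⧸ Ideal.span {x}) := lf6_finite_quotient_of_ne_zero (A := A) hx0
  -- the map `U_L → B ⧸ x B`
  let f : intUnits A F L → B ⧸ Ideal.span {x} :=
    fun u => Ideal.Quotient.mk _ ⟨((u : Lˣ) : L), (hmem _).1 u.2.1⟩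
  have hf : ∀ u v : intUnits A F L, f u = f v →
      u⁻¹ * v ∈ (higherUnits A F L ϖ j).subgroupOf (intUnits A F L) := by
    intro u v huv
    rw [Ideal.Quotient.eq, Ideal.mem_span_singleton'] at huv
    obtain ⟨b, hb⟩ := huv
    have hbL : (b : L) * ϖ ^ j = ((u : Lˣ) : L) - ((v : Lˣ) : L) := by
      have := congrArg (Subtype.val) hb
      simpa [hx] using this
    rw [Subgroup.mem_subgroupOf, mem_higherUnits]
    refine ⟨(u⁻¹ * v).2, -((b : L) * (((u : Lˣ)⁻¹ : Lˣ) : L)), ?_, ?_⟩
    · exact (((hmem _).2 b.2).mul u.2.2).neg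
    · have hu : ((u : Lˣ) : L) * (((u : Lˣ)⁻¹ : Lˣ) : L) = 1 := by simp
      have hv : (((u⁻¹ * v : intUnits A F L) : Lˣ) : L) =
          (((u : Lˣ)⁻¹ : Lˣ) : L) * ((v : Lˣ) : L) := by simp
      rw [hv]
      linear_combination ((((u : Lˣ)⁻¹ : Lˣ) : L)) * hbL + hu
  -- conclude
  haveI : Finite (intUnits A F L ⧸ (higherUnits A F L ϖ j).subgroupOf (intUnits A F L)) := by
    refine Finite.of_injective (fun q => f q.out) ?_
    intro q q' hqq'
    have := hf _ _ hqq'
    rw [← QuotientGroup.out_eq' q, ← QuotientGroup.out_eq' q']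
    exact QuotientGroup.eq.mpr this
  exact Subgroup.index_ne_zero_of_finite

end Fermat.Agent.S55.Local.H177
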