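import Fermat.Agent.S55.Local.Spec

/-!
# S55, layer L, piece T1a : `H¹(Gal(L/K), U_L) = 0` for `L / K` unramified — DIRECT proof

`theorem unramUnitsH1 : UnramUnitsH1Statement`, unconditionally (no filtration argument, no
structure theory of local fields):  by Hilbert 90 a cocycle `c` with values in `U_L` is
`g ↦ g x / x` for some `x : Lˣ`; as `L / K` is unramified (`Lˣ = Kˣ · U_L`), `x = y · m` with
`y ∈ Kˣ`, `m ∈ U_L`, and `g x / x = g m / m`.
-/

set_option autoImplicit false

namespace Fermat.Agent.S55.Local.H177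

open Fermat.Agent.S55.Local groupCohomology

/-- **T1a.**  `H¹(Gal(L/K), U_L) = 0` for `L / K` unramified (direct proof via Hilbert 90). -/
theorem unramUnitsH1 : UnramUnitsH1Statement := by
  intro A F _ _ _ _ _ _ _ _ _ K _ _ _ L _ _ _ _ _ _ hur c hc _
  obtain ⟨x, hx⟩ := isMulCoboundary₁_of_isMulCocycle₁_of_aut_to_units c hc
  obtain ⟨y, hy⟩ := hur x
  refine ⟨x * (unitsIncl L K y)⁻¹, hy, fun g => ?_⟩
  have hg : g • unitsIncl L K y = unitsIncl L K y := by
    ext
    simp [AlgEquiv.smul_units_def]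
  rw [← hx g, smul_mul', smul_inv', hg]
  rw [div_eq_mul_inv, div_eq_mul_inv, mul_inv, inv_inv]
  rw [mul_mul_mul_comm, inv_mul_cancel, mul_one]

end Fermat.Agent.S55.Local.H177
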