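import Fermat.Agent.S55.Local.Spec

/-!
# S55, layer L, piece T1b : `H²(Gal(L/K), U_L) = 0` for `L / K` unramified — cyclic route

`theorem unramUnitsH2_of : CycCocycleCoboundaryIffStatement → CycCocycleSurjStatement →
  UnramCyclicStatement → UnramNormUnitsStatement → UnramUnitsH2Statement`.

No filtration argument (A2, UR3, FF1b, FF2 are not needed):  `G = Gal(L/K)` is cyclic (UR1) with
generator `σ`; a 2-cocycle `c` with values in `U_L` is cohomologous *inside `U_L`* to the standard
cocycle of some `x ∈ U_L` with `σ x = x` (A4c applied to the `G`-module `U_L`); then `x ∈ U_K`, so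
`x = N(w)` with `w ∈ U_L` (UR4) and the standard cocycle is a coboundary in `U_L` (A4b).
-/

set_option autoImplicit false
set_option linter.style.haveILetI false

namespace Fermat.Agent.S55.Local.H177

open Fermat.Agent.S55.Local groupCohomology

section Integrality

variable (A F : Type) [CommRing A] [Field F] [Algebra A F]
variable (K : Type) [Field K] [Algebra F K]
variable (L : Type) [Field L] [Algebra F L] [Algebra K L] [IsScalarTower F K L]

lemma t1b_toL_eq : toL A F L = (algebraMap K L).comp (toL A F K) := by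
  ext a
  simp [toL, IsScalarTower.algebraMap_apply F K L]

variable {A F K L}

/-- `K`-automorphisms of `L` preserve integrality over `A`. -/
lemma t1b_isInt_algEquiv (g : L ≃ₐ[K] L) {x : L} (hx : IsInt A F L x) : IsInt A F L (g x) := by
  obtain ⟨p, hpm, hp⟩ := hx
  refine ⟨p, hpm, ?_⟩
  have hcomp : (g : L →+* L).comp (toL A F L) = toL A F L := by
    ext a
    simp [t1b_toL_eq A F K L]
  have := Polynomial.hom_eval₂ p (toL A F L) (g : L →+* L) x
  rw [hp, map_zero, hcomp] at this
  exact this.symm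

/-- Integrality descends from `L` to `K`. -/
lemma t1b_isInt_of_algebraMap {y : K} (hy : IsInt A F L (algebraMap K L y)) : IsInt A F K y := by
  obtain ⟨p, hpm, hp⟩ := hy
  refine ⟨p, hpm, ?_⟩
  have := Polynomial.hom_eval₂ p (toL A F K) (algebraMap K L) y
  rw [← t1b_toL_eq A F K L, hp] at this
  exact (algebraMap K L).injective (by rw [this, map_zero])

/-- Integrality ascends from `K` to `L`. -/
lemma t1b_isInt_algebraMap {y : K} (hy : IsInt A F K y) : IsInt A F L (algebraMap K L y) := by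
  obtain ⟨p, hpm, hp⟩ := hy
  refine ⟨p, hpm, ?_⟩
  have := Polynomial.hom_eval₂ p (toL A F K) (algebraMap K L) y
  rw [← t1b_toL_eq A F K L, hp, map_zero] at this
  exact this.symm

lemma t1b_smul_mem_intUnits (g : L ≃ₐ[K] L) {u : Lˣ} (hu : u ∈ intUnits A F L) :
    g • u ∈ intUnits A F L := by
  refine ⟨?_, ?_⟩
  · simpa [AlgEquiv.smul_units_def] using t1b_isInt_algEquiv g hu.1
  · have h : ((g • u)⁻¹ : Lˣ) = g • u⁻¹ := (smul_inv' g u).symm
    rw [h]
    simpa [AlgEquiv.smul_units_def] using t1b_isInt_algEquiv g hu.2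

lemma t1b_unitsIncl_mem_intUnits {y : Kˣ} (hy : unitsIncl L K y ∈ intUnits A F L) :
    y ∈ intUnits A F K := by
  refine ⟨t1b_isInt_of_algebraMap (L := L) ?_, t1b_isInt_of_algebraMap (L := L) ?_⟩
  · simpa using hy.1
  · have h : ((unitsIncl L K y)⁻¹ : Lˣ) = unitsIncl L K y⁻¹ := (map_inv _ _).symm
    have := hy.2
    rw [h] at this
    simpa using this

end Integrality

section Action

variable (A F : Type) [CommRing A] [Field F] [Algebra A F]
variable (K : Type) [Field K] [Algebra F K]
variable (L : Type) [Field L] [Algebra F L] [Algebra K L] [IsScalarTower F K L]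

/-- The action of `Gal(L/K)` on the integral units `U_L`. -/
@[reducible] noncomputable def t1bAction : MulDistribMulAction (L ≃ₐ[K] L) (intUnits A F L) where
  smul g u := ⟨g • (u : Lˣ), t1b_smul_mem_intUnits g u.2⟩
  one_smul u := Subtype.ext (one_smul _ (u : Lˣ))
  mul_smul g h u := Subtype.ext (mul_smul g h (u : Lˣ))
  smul_mul g u v := Subtype.ext (smul_mul' g (u : Lˣ) (v : Lˣ))
  smul_one g := Subtype.ext (smul_one g)

end Action

/-- **T1b (glue).**  `H²(Gal(L/K), U_L) = 0` for `L / K` unramified, from the cyclic-cocycle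
lemmas A4b, A4c, cyclicity UR1 and surjectivity of the norm on units UR4. -/
theorem unramUnitsH2_of (hA4b : CycCocycleCoboundaryIffStatement)
    (hA4c : CycCocycleSurjStatement) (hUR1 : UnramCyclicStatement)
    (hUR4 : UnramNormUnitsStatement) : UnramUnitsH2Statement := by
  intro A F _ _ _ _ _ _ _ _ _ K _ _ _ L _ _ _ _ _ _ hur c hc hcU
  haveI : IsCyclic (L ≃ₐ[K] L) := hUR1 A F K L hur
  obtain ⟨σ, hσ⟩ := IsCyclic.exists_generator (α := L ≃ₐ[K] L)
  letI : MulDistribMulAction (L ≃ₐ[K] L) (intUnits A F L) := t1bAction A F K L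
  have hsmul : ∀ (g : L ≃ₐ[K] L) (u : intUnits A F L), ((g • u : intUnits A F L) : Lˣ) =
      g • (u : Lˣ) := fun _ _ => rfl
  -- the cocycle with values in `U_L`
  let c' : (L ≃ₐ[K] L) × (L ≃ₐ[K] L) → intUnits A F L := fun p => ⟨c p, hcU p⟩
  have hc' : IsMulCocycle₂ c' := by
    intro g h j
    apply Subtype.ext
    simpa [c', hsmul] using hc g h j
  obtain ⟨x, hσx, y₁, hy₁⟩ := hA4c (L ≃ₐ[K] L) (intUnits A F L) σ hσ c' hc'
  -- `x` is fixed by the whole group
  have hfix : ∀ g : L ≃ₐ[K] L, g • x = x := by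
    intro g
    obtain ⟨n, rfl⟩ := Subgroup.mem_zpowers_iff.mp (hσ g)
    have hinv : σ⁻¹ • x = x := by
      conv_lhs => rw [← hσx]
      rw [inv_smul_smul]
    induction n using Int.induction_on with
    | zero => simp
    | succ n ih => rw [zpow_add_one, mul_smul, hσx, ih]
    | pred n ih => rw [zpow_sub_one, mul_smul, hinv, ih]
  -- hence `x` comes from `K`
  have hxK : ((x : Lˣ) : L) ∈ Set.range (algebraMap K L) := by
    rw [IsGalois.mem_range_algebraMap_iff_fixed]
    intro g
    have := congrArg (fun u : intUnits A F L => ((u : Lˣ) : L)) (hfix g)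
    simpa [hsmul, AlgEquiv.smul_units_def] using this
  obtain ⟨y₀, hy₀⟩ := hxK
  have hy₀0 : y₀ ≠ 0 := by
    rintro rfl
    rw [map_zero] at hy₀
    exact (x : Lˣ).ne_zero hy₀.symm
  let y : Kˣ := Units.mk0 y₀ hy₀0
  have hyx : unitsIncl L K y = (x : Lˣ) := by
    ext
    simpa [y] using hy₀
  have hyU : y ∈ intUnits A F K := by
    apply t1b_unitsIncl_mem_intUnits (L := L)
    rw [hyx]
    exact x.2
  obtain ⟨w, hwU, hw⟩ := hUR4 A F K L hur y hyU
  -- `x` is a norm from `U_L`
  have hnorm : ∏ g : L ≃ₐ[K] L, g • (⟨w, hwU⟩ : intUnits A F L) = x := by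
    apply Subtype.ext
    apply Units.ext
    have h1 : (((∏ g : L ≃ₐ[K] L, g • (⟨w, hwU⟩ : intUnits A F L) : intUnits A F L) : Lˣ) : L) =
        ∏ g : L ≃ₐ[K] L, g (w : L) := by
      rw [← Subgroup.coe_subtype, map_prod, Units.coe_prod]
      rfl
    rw [h1, ← Algebra.norm_eq_prod_automorphisms, ← hy₀]
    have := congrArg (fun u : Kˣ => (u : K)) hw
    simp only [normUnits_coe] at this
    rw [this]
    rfl
  obtain ⟨y₂, hy₂⟩ :=
    ((hA4b (L ≃ₐ[K] L) (intUnits A F L) σ hσ x hσx).2 ⟨⟨w, hwU⟩, hnorm⟩)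
  -- assemble
  refine ⟨fun g => ((y₁ g * y₂ g : intUnits A F L) : Lˣ), fun g => (y₁ g * y₂ g).2, ?_⟩
  intro g h
  have e₁ := congrArg (fun u : intUnits A F L => (u : Lˣ)) (hy₁ g h)
  have e₂ := congrArg (fun u : intUnits A F L => (u : Lˣ)) (hy₂ g h)
  simp only [Subgroup.coe_mul, Subgroup.coe_div, hsmul, c'] at e₁ e₂
  simp only [Subgroup.coe_mul, smul_mul']
  have e₃ : c (g, h) = (c (g, h) / ((cycCocycle σ x (g, h) : intUnits A F L) : Lˣ)) *
      ((cycCocycle σ x (g, h) : intUnits A F L) : Lˣ) := by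
    rw [div_mul_cancel]
  rw [e₃, ← e₁, ← e₂]
  simp only [div_eq_mul_inv, mul_inv]
  ac_rfl

end Fermat.Agent.S55.Local.H177
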